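import Mathlib

set_option autoImplicit false

namespace Fermat.Agent.S44

open Matrix

section NormBasics

variable {R S : Type*} [CommRing R] [CommRing S] [Algebra R S] [Module.Free R S] [Module.Finite R S]

/-- `N(1 + r u) = 1 + r Tr(u) + r² c`. -/
theorem s44d_norm_one_add (r : R) (u : S) :
    ∃ c : R, Algebra.norm R (1 + algebraMap R S r * u) =
      1 + r * Algebra.trace R S u + r ^ 2 * c := by
  classical
  let b := Module.Free.chooseBasis R S
  refine ⟨(det (1 + (Polynomial.X : Polynomial R) •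
    (Algebra.leftMulMatrix b u).map Polynomial.C)).divX.divX.eval r, ?_⟩
  rw [Algebra.norm_eq_matrix_det b, map_add, map_one, map_mul, AlgHom.commutes,
    Algebra.algebraMap_eq_smul_one, smul_mul_assoc, one_mul, Matrix.det_one_add_smul,
    ← Algebra.trace_eq_matrix_trace b]
  ring

/-- determinants of congruent matrices are congruent. -/
theorem s44d_det_congr {ι : Type*} [Fintype ι] [DecidableEq ι] (r : R) (A B : Matrix ι ι R) :
    ∃ c : R, det (A + r • B) = det A + r * c := by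
  have h : Ideal.Quotient.mk (Ideal.span {r}) (det (A + r • B) - det A) = 0 := by
    rw [map_sub, RingHom.map_det, RingHom.map_det, sub_eq_zero]
    congr 1
    ext i j
    simp [Ideal.Quotient.eq_zero_iff_mem.2 (Ideal.mem_span_singleton_self r)]
  rw [Ideal.Quotient.eq_zero_iff_mem, Ideal.mem_span_singleton] at h
  obtain ⟨c, hc⟩ := h
  exact ⟨c, by linear_combination hc⟩

/-- norms of congruent elements are congruent. -/
theorem s44d_norm_congr (r : R) (x y : S) :
    ∃ c : R, Algebra.norm R (x + algebraMap R S r * y) = Algebra.norm R x + r * c := by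
  classical
  let b := Module.Free.chooseBasis R S
  obtain ⟨c, hc⟩ := s44d_det_congr r (Algebra.leftMulMatrix b x) (Algebra.leftMulMatrix b y)
  refine ⟨c, ?_⟩
  rw [Algebra.norm_eq_matrix_det b, Algebra.norm_eq_matrix_det b, map_add, map_mul,
    AlgHom.commutes, Algebra.algebraMap_eq_smul_one, smul_mul_assoc, one_mul, hc]

end NormBasics

section TwoPrimes

variable {R S : Type*} [CommRing R] [CommRing S] [Algebra R S]
  {π : R} {Q0 Qi : Ideal S}

theorem s44d_pow_mul (hmap : Ideal.span {algebraMap R S π} = Q0 * Qi) (n : ℕ) :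
    Q0 ^ n * Qi ^ n = Ideal.span {algebraMap R S (π ^ n)} := by
  rw [← mul_pow, ← hmap, Ideal.span_singleton_pow, map_pow]

theorem s44d_pow_inf (hmap : Ideal.span {algebraMap R S π} = Q0 * Qi) (hcop : IsCoprime Q0 Qi)
    (n : ℕ) : Q0 ^ n ⊓ Qi ^ n = Ideal.span {algebraMap R S (π ^ n)} := by
  rw [← Ideal.mul_eq_inf_of_isCoprime (hcop.pow), s44d_pow_mul hmap]

theorem s44d_mem_span_of_mem (hmap : Ideal.span {algebraMap R S π} = Q0 * Qi)
    (hcop : IsCoprime Q0 Qi) (n : ℕ) {x : S} (h0 : x ∈ Q0 ^ n) (hi : x ∈ Qi ^ n) :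
    ∃ y : S, x = algebraMap R S (π ^ n) * y := by
  have : x ∈ Q0 ^ n ⊓ Qi ^ n := ⟨h0, hi⟩
  rw [s44d_pow_inf hmap hcop, Ideal.mem_span_singleton] at this
  exact this

theorem s44d_pi_mem_Qi (hmap : Ideal.span {algebraMap R S π} = Q0 * Qi) :
    algebraMap R S π ∈ Qi := by
  have h : algebraMap R S π ∈ Ideal.span {algebraMap R S π} := Ideal.mem_span_singleton_self _
  rw [hmap] at h
  exact (Ideal.mul_le_right : Q0 * Qi ≤ Qi) h

theorem s44d_pi_pow_mem_Qi (hmap : Ideal.span {algebraMap R S π} = Q0 * Qi) (n : ℕ) :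
    algebraMap R S (π ^ n) ∈ Qi ^ n := by
  rw [map_pow]
  exact Ideal.pow_mem_pow (s44d_pi_mem_Qi hmap) n

/-- approximate idempotent. -/
theorem s44d_idem (hcop : IsCoprime Q0 Qi) (n m : ℕ) :
    ∃ e : S, e ∈ Q0 ^ n ∧ 1 - e ∈ Qi ^ m := by
  obtain ⟨i, hi, j, hj, hij⟩ := Ideal.isCoprime_iff_exists.1 (hcop.pow (m := n) (n := m))
  exact ⟨i, hi, by rw [← hij]; simpa using hj⟩

/-- CRT for the two prime powers. -/
theorem s44d_crt (hcop : IsCoprime Q0 Qi) (n m : ℕ) (a b : S) :
    ∃ x : S, x - a ∈ Q0 ^ n ∧ x - b ∈ Qi ^ m := by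
  obtain ⟨e, he0, hei⟩ := s44d_idem hcop n m
  refine ⟨a * (1 - e) + b * e, ?_, ?_⟩
  · have : a * (1 - e) + b * e - a = (b - a) * e := by ring
    rw [this]
    exact Ideal.mul_mem_left _ _ he0
  · have : a * (1 - e) + b * e - b = (a - b) * (1 - e) := by ring
    rw [this]
    exact Ideal.mul_mem_left _ _ hei

/-- `R → S/Qi^n` is onto. -/
theorem s44d_surj (hmap : Ideal.span {algebraMap R S π} = Q0 * Qi) (hcop : IsCoprime Q0 Qi)
    (hsurj : ∀ s : S, ∃ r : R, s - algebraMap R S r ∈ Qi) (n : ℕ) :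
    ∀ s : S, ∃ r : R, s - algebraMap R S r ∈ Qi ^ n := by
  induction n with
  | zero => intro s; exact ⟨0, by simp⟩
  | succ n ih =>
    intro s
    obtain ⟨r, hr⟩ := ih s
    -- y := s - r ∈ Qi^n; y = y a + y c, a ∈ Q0^n, c ∈ Qi
    obtain ⟨e, he0, hei⟩ := s44d_idem hcop n 1
    rw [pow_one] at hei
    set y := s - algebraMap R S r with hy
    have h1 : y * e ∈ Q0 ^ n * Qi ^ n := by
      have := Ideal.mul_mem_mul he0 hr
      rwa [mul_comm e y] at this
    rw [s44d_pow_mul hmap, Ideal.mem_span_singleton] at h1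
    obtain ⟨s', hs'⟩ := h1
    obtain ⟨r', hr'⟩ := hsurj s'
    refine ⟨r + π ^ n * r', ?_⟩
    have : s - algebraMap R S (r + π ^ n * r') =
        y * (1 - e) + algebraMap R S (π ^ n) * (s' - algebraMap R S r') := by
      have : y * (1 - e) = y - y * e := by ring
      rw [this, hs', hy, map_add, map_mul]
      ring
    rw [this, pow_succ]
    refine Ideal.add_mem _ (Ideal.mul_mem_mul hr hei) ?_
    exact Ideal.mul_mem_mul (s44d_pi_pow_mem_Qi hmap n) hr'

end TwoPrimes

end Fermat.Agent.S44
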