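import Mathlib
import Fermat.Agent.S44.Dich.Basic

set_option autoImplicit false

namespace Fermat.Agent.S44

open Matrix

section NormA

variable {R S : Type*} [CommRing R] [CommRing S] [Algebra R S] [Module.Free R S] [Module.Finite R S]
  {π : R} {Q0 Qi : Ideal S}

/-- **(N-A), simple form.** `s ≡ 1 mod Q0^n ⟹ N(s) ≡ s mod Qi^n`. -/
theorem s44d_normA_simple (hmap : Ideal.span {algebraMap R S π} = Q0 * Qi) (hcop : IsCoprime Q0 Qi)
    (hsurj : ∀ s : S, ∃ r : R, s - algebraMap R S r ∈ Qi) (n : ℕ) (s : S)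
    (hs : s - 1 ∈ Q0 ^ n) : algebraMap R S (Algebra.norm R s) - s ∈ Qi ^ n := by
  classical
  let b := Module.Free.chooseBasis R S
  obtain ⟨e, he0, hei⟩ := s44d_idem hcop n n
  have hsurjn := s44d_surj hmap hcop hsurj n
  have key : ∀ j, ∃ (r : R) (y : S),
      (s - 1) * b j = algebraMap R S r * e + algebraMap R S (π ^ n) * y := by
    intro j
    obtain ⟨r, hr⟩ := hsurjn ((s - 1) * b j)
    have h0 : (s - 1) * b j - algebraMap R S r * e ∈ Q0 ^ n :=
      sub_mem (Ideal.mul_mem_right _ _ hs) (Ideal.mul_mem_left _ _ he0)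
    have hi : (s - 1) * b j - algebraMap R S r * e ∈ Qi ^ n := by
      have : (s - 1) * b j - algebraMap R S r * e =
          ((s - 1) * b j - algebraMap R S r) + algebraMap R S r * (1 - e) := by ring
      rw [this]
      exact add_mem hr (Ideal.mul_mem_left _ _ hei)
    obtain ⟨y, hy⟩ := s44d_mem_span_of_mem hmap hcop n h0 hi
    exact ⟨r, y, by linear_combination hy⟩
  choose φ y hφ using key
  let u : Module.Free.ChooseBasisIndex R S → R := fun i => b.repr e i
  have hA : Algebra.leftMulMatrix b (s - 1) =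
      replicateCol Unit u * replicateRow Unit φ +
        (π ^ n) • (Matrix.of fun i j => b.repr (y j) i) := by
    ext i j
    rw [Algebra.leftMulMatrix_eq_repr_mul, hφ j]
    simp only [Algebra.algebraMap_eq_smul_one, smul_mul_assoc, one_mul, map_add, map_smul,
      Finsupp.coe_add, Finsupp.coe_smul, Pi.add_apply, Pi.smul_apply, smul_eq_mul,
      Matrix.add_apply, Matrix.smul_apply, Matrix.of_apply, Matrix.mul_apply,
      replicateCol_apply, replicateRow_apply, Finset.univ_unique, Finset.sum_singleton, u]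
    ring
  obtain ⟨c, hc⟩ := s44d_det_congr (π ^ n) (1 + replicateCol Unit u * replicateRow Unit φ)
    (Matrix.of fun i j => b.repr (y j) i)
  have hnorm : Algebra.norm R s = 1 + φ ⬝ᵥ u + π ^ n * c := by
    rw [Algebra.norm_eq_matrix_det b, show s = 1 + (s - 1) by ring, map_add, map_one, hA,
      ← add_assoc, hc, det_one_add_replicateCol_mul_replicateRow]
  -- (s - 1) e = (φ ⬝ᵥ u) e + π^n (Σ u_j y_j)
  have he : (s - 1) * e = algebraMap R S (φ ⬝ᵥ u) * e +
      algebraMap R S (π ^ n) * ∑ j, u j • y j := by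
    conv_lhs => rw [← b.sum_repr e]
    rw [Finset.mul_sum]
    have : ∀ j, (s - 1) * (b.repr e j • b j) =
        algebraMap R S (φ j * u j) * e + algebraMap R S (π ^ n) * (u j • y j) := by
      intro j
      rw [mul_smul_comm, hφ j, map_mul]
      simp only [Algebra.smul_def, u]
      ring
    rw [Finset.sum_congr rfl fun j _ => this j, Finset.sum_add_distrib, ← Finset.sum_mul,
      ← Finset.mul_sum, ← map_sum]
    rfl
  have h1 : (s - 1 - algebraMap R S (φ ⬝ᵥ u)) * e ∈ Qi ^ n := by
    have : (s - 1 - algebraMap R S (φ ⬝ᵥ u)) * e =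
        algebraMap R S (π ^ n) * ∑ j, u j • y j := by linear_combination he
    rw [this]
    exact Ideal.mul_mem_right _ _ (s44d_pi_pow_mem_Qi hmap n)
  have h2 : (s - 1 - algebraMap R S (φ ⬝ᵥ u)) * (1 - e) ∈ Qi ^ n := Ideal.mul_mem_left _ _ hei
  have h3 : s - 1 - algebraMap R S (φ ⬝ᵥ u) ∈ Qi ^ n := by
    have := add_mem h1 h2
    convert this using 1
    ring
  have : algebraMap R S (Algebra.norm R s) - s =
      -(s - 1 - algebraMap R S (φ ⬝ᵥ u)) + algebraMap R S (π ^ n) * algebraMap R S c := by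
    rw [hnorm]
    simp only [map_add, map_mul, map_one]
    ring
  rw [this]
  exact add_mem (neg_mem h3) (Ideal.mul_mem_right _ _ (s44d_pi_pow_mem_Qi hmap n))

end NormA

end Fermat.Agent.S44
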