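import Mathlib
import Fermat.Agent.S44.Dich.NormA

set_option autoImplicit false

namespace Fermat.Agent.S44

section NormAC

variable {R S : Type*} [CommRing R] [CommRing S] [Algebra R S] [Module.Free R S] [Module.Finite R S]
  {π : R} {Q0 Qi : Ideal S}

/-- **(N-C).** `s ≡ 1 mod π^d`, `d ≥ 1` `⟹ N(s) ≡ s mod Qi^(d+1)`: the `Q0`-component of
`s - 1` does not contribute at order `d`. -/
theorem s44d_normC (hmap : Ideal.span {algebraMap R S π} = Q0 * Qi)
    (htr : ∀ s : S, algebraMap R S (Algebra.trace R S s) - s ∈ Qi) (d : ℕ) (hd : 1 ≤ d)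
    (s u : S) (hs : s = 1 + algebraMap R S (π ^ d) * u) :
    algebraMap R S (Algebra.norm R s) - s ∈ Qi ^ (d + 1) := by
  obtain ⟨c, hc⟩ := s44d_norm_one_add (π ^ d) u
  have : algebraMap R S (Algebra.norm R s) - s =
      algebraMap R S (π ^ d) * (algebraMap R S (Algebra.trace R S u) - u) +
        algebraMap R S (π ^ (2 * d)) * algebraMap R S c := by
    rw [hs, hc]
    simp only [map_add, map_mul, map_one, map_pow]
    ring
  rw [this]
  refine add_mem ?_ ?_
  · rw [pow_succ]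
    exact Ideal.mul_mem_mul (s44d_pi_pow_mem_Qi hmap d) (htr u)
  · refine Ideal.mul_mem_right _ _ ?_
    exact Ideal.pow_le_pow_right (by omega) (s44d_pi_pow_mem_Qi hmap (2 * d))

/-- **(N-A).** `s ≡ 1 mod Q0^n`, `s ∈ Qi^k` `⟹ N(s) ≡ s mod Qi^(n+k)`. -/
theorem s44d_normA (hmap : Ideal.span {algebraMap R S π} = Q0 * Qi) (hcop : IsCoprime Q0 Qi)
    (hsurj : ∀ s : S, ∃ r : R, s - algebraMap R S r ∈ Qi) (n k : ℕ) (s : S)
    (hs : s - 1 ∈ Q0 ^ n) (hk : s ∈ Qi ^ k) :
    algebraMap R S (Algebra.norm R s) - s ∈ Qi ^ (n + k) := by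
  obtain ⟨s', h0', hi'⟩ := s44d_crt hcop (n + k) (n + k) s 1
  obtain ⟨s'', h0'', hi''⟩ := s44d_crt hcop (n + k) (n + k) 1 s
  have hle0 : Q0 ^ (n + k) ≤ Q0 ^ n := Ideal.pow_le_pow_right (by omega)
  have hlei : Qi ^ (n + k) ≤ Qi ^ n := Ideal.pow_le_pow_right (by omega)
  have hlek : Qi ^ (n + k) ≤ Qi ^ k := Ideal.pow_le_pow_right (by omega)
  -- s' = 1 + π^n y'
  have h1 : s' - 1 ∈ Q0 ^ n := by
    have : s' - 1 = (s' - s) + (s - 1) := by ring
    rw [this]; exact add_mem (hle0 h0') hs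
  obtain ⟨y', hy'⟩ := s44d_mem_span_of_mem hmap hcop n h1 (hlei hi')
  obtain ⟨c₁, hc₁⟩ := s44d_norm_congr (π ^ n) (1 : S) y'
  have hs' : s' = 1 + algebraMap R S (π ^ n) * y' := by linear_combination hy'
  rw [← hs', map_one] at hc₁
  -- s = s' s'' + π^(n+k) y
  have h2 : s - s' * s'' ∈ Q0 ^ (n + k) := by
    have : s - s' * s'' = -(s' * (s'' - 1)) - (s' - s) := by ring
    rw [this]; exact sub_mem (neg_mem (Ideal.mul_mem_left _ _ h0'')) h0'
  have h3 : s - s' * s'' ∈ Qi ^ (n + k) := by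
    have : s - s' * s'' = -((s' - 1) * s'') - (s'' - s) := by ring
    rw [this]; exact sub_mem (neg_mem (Ideal.mul_mem_right _ _ hi')) hi''
  obtain ⟨y, hy⟩ := s44d_mem_span_of_mem hmap hcop (n + k) h2 h3
  obtain ⟨c₂, hc₂⟩ := s44d_norm_congr (π ^ (n + k)) (s' * s'') y
  have hs : s = s' * s'' + algebraMap R S (π ^ (n + k)) * y := by linear_combination hy
  rw [← hs, map_mul, hc₁] at hc₂
  -- N-A simple for s''
  have h4 := s44d_normA_simple hmap hcop hsurj (n + k) s'' h0''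
  have h5 : s'' ∈ Qi ^ k := by
    have : s'' = (s'' - s) + s := by ring
    rw [this]; exact add_mem (hlek hi'') hk
  have h6 : algebraMap R S (Algebra.norm R s'') ∈ Qi ^ k := by
    have : algebraMap R S (Algebra.norm R s'') =
        (algebraMap R S (Algebra.norm R s'') - s'') + s'' := by ring
    rw [this]; exact add_mem (hlek h4) h5
  have : algebraMap R S (Algebra.norm R s) - s =
      (algebraMap R S (Algebra.norm R s'') - s'') + (s'' - s) +
        algebraMap R S (π ^ n) * (algebraMap R S c₁ * algebraMap R S (Algebra.norm R s'')) +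
        algebraMap R S (π ^ (n + k)) * algebraMap R S c₂ := by
    rw [hc₂]
    simp only [map_add, map_mul, map_one, map_pow]
    ring
  rw [this]
  refine add_mem (add_mem (add_mem h4 hi'') ?_) ?_
  · rw [pow_add]
    exact Ideal.mul_mem_mul (s44d_pi_pow_mem_Qi hmap n) (Ideal.mul_mem_left _ _ h6)
  · exact Ideal.mul_mem_right _ _ (s44d_pi_pow_mem_Qi hmap (n + k))

end NormAC

end Fermat.Agent.S44
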