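import Mathlib

set_option autoImplicit false

namespace Fermat.Agent.S44

section PrincipalUnits

variable {F : Type*} [Field F] {Γ₀ : Type*} [LinearOrderedCommGroupWithZero Γ₀]

theorem s44d_val_eq_one_of_sub_lt (v : Valuation F Γ₀) {a : F} (h : v (a - 1) < 1) : v a = 1 := by
  have : a = 1 + (a - 1) := by ring
  rw [this]
  exact v.map_one_add_of_lt h

/-- The group of principal units `{a : v(a - 1) ≤ γ, v(a - 1) < 1}`. -/
def s44d_U (v : Valuation F Γ₀) (γ : Γ₀) : Subgroup Fˣ where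
  carrier := {a | v ((a : F) - 1) ≤ γ ∧ v ((a : F) - 1) < 1}
  one_mem' := by simp
  mul_mem' := by
    rintro a b ⟨ha, ha'⟩ ⟨hb, hb'⟩
    have h1 : v (a : F) = 1 := s44d_val_eq_one_of_sub_lt v ha'
    have h2 : ((a * b : Fˣ) : F) - 1 = (a : F) * ((b : F) - 1) + ((a : F) - 1) := by
      push_cast; ring
    have h3 : v ((a : F) * ((b : F) - 1)) = v ((b : F) - 1) := by rw [map_mul, h1, one_mul]
    constructor
    · rw [h2]
      exact v.map_add_le (h3.le.trans hb) ha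
    · rw [h2]
      exact v.map_add_lt (lt_of_eq_of_lt h3 hb') ha'
  inv_mem' := by
    rintro a ⟨ha, ha'⟩
    have h1 : v (a : F) = 1 := s44d_val_eq_one_of_sub_lt v ha'
    have h2 : ((a⁻¹ : Fˣ) : F) - 1 = -((a : F)⁻¹ * ((a : F) - 1)) := by
      have : (a : F) ≠ 0 := a.ne_zero
      push_cast
      field_simp
      ring
    have h3 : v (((a⁻¹ : Fˣ) : F) - 1) = v ((a : F) - 1) := by
      rw [h2, Valuation.map_neg, map_mul, map_inv₀, h1, inv_one, one_mul]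
    exact ⟨h3 ▸ ha, h3 ▸ ha'⟩

theorem s44d_mem_U {v : Valuation F Γ₀} {γ : Γ₀} {a : Fˣ} :
    a ∈ s44d_U v γ ↔ v ((a : F) - 1) ≤ γ ∧ v ((a : F) - 1) < 1 := Iff.rfl

theorem s44d_U_mono {v : Valuation F Γ₀} {γ δ : Γ₀} (h : γ ≤ δ) : s44d_U v γ ≤ s44d_U v δ :=
  fun _ ha => ⟨ha.1.trans h, ha.2⟩

theorem s44d_val_of_mem_U {v : Valuation F Γ₀} {γ : Γ₀} {a : Fˣ} (ha : a ∈ s44d_U v γ) :
    v (a : F) = 1 := s44d_val_eq_one_of_sub_lt v ha.2

end PrincipalUnits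

end Fermat.Agent.S44
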