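import Mathlib
import Fermat.Agent.S44.Dich.NormC
import Fermat.Agent.S44.Dich.Units

set_option autoImplicit false

namespace Fermat.Agent.S44

open IsDedekindDomain WithZero

section Dedekind

variable {S F : Type*} [CommRing S] [IsDedekindDomain S] [Field F] [Algebra S F] [IsFractionRing S F]

theorem s44d_isCoprime {a b : HeightOneSpectrum S} (h : a ≠ b) : IsCoprime a.asIdeal b.asIdeal := by
  rw [Ideal.isCoprime_iff_sup_eq]
  exact Ideal.IsMaximal.coprime_of_ne a.isMaximal b.isMaximal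
    (fun h' => h (HeightOneSpectrum.ext h'))

/-- A uniformiser at `b` which is `≡ 1 mod a^M`. -/
theorem s44d_exists_unif {a b : HeightOneSpectrum S} (h : a ≠ b) (M : ℕ) :
    ∃ ϖ : S, ϖ - 1 ∈ a.asIdeal ^ M ∧ b.intValuation ϖ = exp (-1 : ℤ) := by
  obtain ⟨ϖ₁, h1⟩ := b.intValuation_exists_uniformizer
  obtain ⟨ϖ, h0, hi⟩ := s44d_crt (s44d_isCoprime h) M 2 1 ϖ₁
  refine ⟨ϖ, h0, ?_⟩
  have h2 : b.intValuation (ϖ - ϖ₁) ≤ exp (-(2 : ℕ) : ℤ) :=
    (b.intValuation_le_pow_iff_mem _ 2).2 hi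
  have h3 : b.intValuation (ϖ - ϖ₁) < b.intValuation ϖ₁ := by
    rw [h1]
    refine lt_of_le_of_lt h2 ?_
    rw [exp_lt_exp]
    norm_num
  have : ϖ = ϖ₁ + (ϖ - ϖ₁) := by ring
  rw [this, Valuation.map_add_eq_of_lt_left _ h3, h1]

theorem s44d_intVal_eq_one_of_sub_mem {a : HeightOneSpectrum S} {M : ℕ} (hM : 1 ≤ M) {x : S}
    (hx : x - 1 ∈ a.asIdeal ^ M) : a.intValuation x = 1 := by
  have h1 : a.intValuation (x - 1) < 1 := by
    rw [a.intValuation_lt_one_iff_mem]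
    exact Ideal.pow_le_self (by omega) hx
  have : x = 1 + (x - 1) := by ring
  rw [this]
  exact Valuation.map_one_add_of_lt _ h1

end Dedekind

end Fermat.Agent.S44
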