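import Mathlib
import Fermat.Agent.S44.Dich.Dedekind

set_option autoImplicit false

namespace Fermat.Agent.S44

open IsDedekindDomain WithZero

section TwoPrimesField

variable {S F : Type*} [CommRing S] [IsDedekindDomain S] [Field F] [Algebra S F] [IsFractionRing S F]
  {v0 vi : HeightOneSpectrum S}

/-- with only two primes, an element with both valuations `≤ 1` is integral. -/
theorem s44d_mem_S (hall : ∀ v : HeightOneSpectrum S, v = v0 ∨ v = vi) (x : F)
    (h0 : v0.valuation F x ≤ 1) (hi : vi.valuation F x ≤ 1) : ∃ s : S, algebraMap S F s = x := by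
  have := HeightOneSpectrum.mem_integers_of_valuation_le_one F x (fun v => by
    rcases hall v with h | h
    · rw [h]; exact h0
    · rw [h]; exact hi)
  exact this

/-- decomposition `ρ = θ^i ϖ^j ε`. -/
theorem s44d_decomp (hall : ∀ v : HeightOneSpectrum S, v = v0 ∨ v = vi) (θ ϖ : S)
    (hθ0 : v0.intValuation θ = exp (-1 : ℤ)) (hθi : vi.intValuation θ = 1)
    (hϖ0 : v0.intValuation ϖ = 1) (hϖi : vi.intValuation ϖ = exp (-1 : ℤ)) (ρ : F) (hρ : ρ ≠ 0) :
    ∃ (i j : ℤ) (ε : S), ρ = algebraMap S F θ ^ i * algebraMap S F ϖ ^ j * algebraMap S F ε ∧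
      v0.intValuation ε = 1 ∧ vi.intValuation ε = 1 := by
  have h0 : v0.valuation F ρ ≠ 0 := (Valuation.ne_zero_iff _).2 hρ
  have hi : vi.valuation F ρ ≠ 0 := (Valuation.ne_zero_iff _).2 hρ
  set i : ℤ := -log (v0.valuation F ρ) with hi_def
  set j : ℤ := -log (vi.valuation F ρ) with hj_def
  set x : F := ρ * (algebraMap S F θ ^ i)⁻¹ * (algebraMap S F ϖ ^ j)⁻¹ with hx
  have hθ0' : v0.valuation F (algebraMap S F θ) = exp (-1 : ℤ) := by
    rw [HeightOneSpectrum.valuation_of_algebraMap, hθ0]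
  have hθi' : vi.valuation F (algebraMap S F θ) = 1 := by
    rw [HeightOneSpectrum.valuation_of_algebraMap, hθi]
  have hϖ0' : v0.valuation F (algebraMap S F ϖ) = 1 := by
    rw [HeightOneSpectrum.valuation_of_algebraMap, hϖ0]
  have hϖi' : vi.valuation F (algebraMap S F ϖ) = exp (-1 : ℤ) := by
    rw [HeightOneSpectrum.valuation_of_algebraMap, hϖi]
  have hx0 : v0.valuation F x = 1 := by
    rw [hx, map_mul, map_mul, map_inv₀, map_inv₀, map_zpow₀, map_zpow₀, hθ0', hϖ0', one_zpow,
      inv_one, mul_one, ← exp_zsmul, smul_eq_mul, hi_def]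
    conv_lhs => rw [← exp_log h0]
    rw [← exp_neg, ← exp_add]
    simp
  have hxi : vi.valuation F x = 1 := by
    rw [hx, map_mul, map_mul, map_inv₀, map_inv₀, map_zpow₀, map_zpow₀, hθi', hϖi', one_zpow,
      inv_one, mul_one, ← exp_zsmul, smul_eq_mul, hj_def]
    conv_lhs => rw [← exp_log hi]
    rw [← exp_neg, ← exp_add]
    simp
  obtain ⟨ε, hε⟩ := s44d_mem_S hall x hx0.le hxi.le
  refine ⟨i, j, ε, ?_, ?_, ?_⟩
  · have hθne : algebraMap S F θ ≠ 0 := by
      intro h; rw [h, map_zero] at hθi'; exact zero_ne_one hθi'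
    have hϖne : algebraMap S F ϖ ≠ 0 := by
      intro h; rw [h, map_zero] at hϖ0'; exact zero_ne_one hϖ0'
    rw [hε, hx]
    field_simp
  · rw [← HeightOneSpectrum.valuation_of_algebraMap (K := F)]
    change v0.valuation F (algebraMap S F ε) = 1
    rw [hε, hx0]
  · rw [← HeightOneSpectrum.valuation_of_algebraMap (K := F)]
    change vi.valuation F (algebraMap S F ε) = 1
    rw [hε, hxi]

end TwoPrimesField

end Fermat.Agent.S44
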