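import Mathlib
import Fermat.Agent.S44.Dich.Decomp

set_option autoImplicit false
set_option linter.unusedSectionVars false

namespace Fermat.Agent.S44

open IsDedekindDomain WithZero

section Lam

variable {R S F' F : Type*} [CommRing R] [CommRing S] [IsDedekindDomain S] [Algebra R S]
  [Module.Free R S] [Module.Finite R S]
  [Field F'] [Field F] [Algebra R F'] [Algebra S F] [IsFractionRing S F] [Algebra F' F]
  [Algebra R F] [IsScalarTower R S F] [IsScalarTower R F' F]
  {π : R} {v0 vi : HeightOneSpectrum S}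

/-- `Λ(b) = α(N b) / b`. -/
def s44d_Lam (N : F →* F') : Fˣ →* Fˣ where
  toFun b := Units.map ((algebraMap F' F : F' →* F).comp N) b / b
  map_one' := by simp
  map_mul' a b := by rw [map_mul]; exact mul_div_mul_comm _ _ _ _

theorem s44d_Lam_coe (N : F →* F') (b : Fˣ) :
    ((s44d_Lam N b : Fˣ) : F) = algebraMap F' F (N (b : F)) / (b : F) := by
  simp [s44d_Lam, Units.val_div_eq_div_val]

theorem s44d_Lam_sub_one (N : F →* F')
    (hN : ∀ s : S, N (algebraMap S F s) = algebraMap R F' (Algebra.norm R s)) (s : S)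
    (hs : algebraMap S F s ≠ 0) :
    ((s44d_Lam N (Units.mk0 _ hs) : Fˣ) : F) - 1 =
      algebraMap S F (algebraMap R S (Algebra.norm R s) - s) / algebraMap S F s := by
  rw [s44d_Lam_coe, Units.val_mk0, hN, ← IsScalarTower.algebraMap_apply R F' F,
    IsScalarTower.algebraMap_apply R S F, map_sub]
  field_simp

/-- transfer of an `S`-level congruence to `Λ`. -/
theorem s44d_Lam_mem_of (N : F →* F')
    (hN : ∀ s : S, N (algebraMap S F s) = algebraMap R F' (Algebra.norm R s)) (s : S)
    (hs : algebraMap S F s ≠ 0) (k m : ℕ) (hm : 1 ≤ m)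
    (hk : vi.intValuation s = exp (-(k : ℤ)))
    (h : algebraMap R S (Algebra.norm R s) - s ∈ vi.asIdeal ^ (m + k)) :
    s44d_Lam N (Units.mk0 _ hs) ∈ s44d_U (vi.valuation F) (exp (-(m : ℤ))) := by
  have h1 : vi.valuation F (((s44d_Lam N (Units.mk0 _ hs) : Fˣ) : F) - 1) ≤ exp (-(m : ℤ)) := by
    rw [s44d_Lam_sub_one N hN s hs, map_div₀]
    have e1 : vi.valuation F (algebraMap S F s) = exp (-(k : ℤ)) := by
      rw [← hk]; exact HeightOneSpectrum.valuation_of_algebraMap vi s
    have e2 : vi.valuation F (algebraMap S F (algebraMap R S (Algebra.norm R s) - s)) ≤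
        exp (-((m + k : ℕ) : ℤ)) := by
      have := (vi.intValuation_le_pow_iff_mem _ (m + k)).2 h
      rwa [← HeightOneSpectrum.valuation_of_algebraMap (K := F)] at this
    rw [e1, div_le_iff₀ (by simp)]
    refine e2.trans (le_of_eq ?_)
    rw [← exp_add]
    congr 1
    push_cast
    ring
  refine ⟨h1, lt_of_le_of_lt h1 ?_⟩
  rw [← exp_zero, exp_lt_exp]
  omega

end Lam

end Fermat.Agent.S44
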