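import Mathlib
import Fermat.Agent.S44.Dich.Lam

set_option autoImplicit false
set_option linter.unusedSectionVars false

namespace Fermat.Agent.S44

open IsDedekindDomain WithZero

section LamAC

variable {R S F' F : Type*} [CommRing R] [CommRing S] [IsDedekindDomain S] [Algebra R S]
  [Module.Free R S] [Module.Finite R S]
  [Field F'] [Field F] [Algebra R F'] [Algebra S F] [IsFractionRing S F] [Algebra F' F]
  [Algebra R F] [IsScalarTower R S F] [IsScalarTower R F' F]
  {π : R} {v0 vi : HeightOneSpectrum S}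

theorem s44d_hsurj_of_htr (htr : ∀ s : S, algebraMap R S (Algebra.trace R S s) - s ∈ vi.asIdeal) :
    ∀ s : S, ∃ r : R, s - algebraMap R S r ∈ vi.asIdeal := fun s =>
  ⟨Algebra.trace R S s, by
    have := neg_mem (htr s)
    rwa [neg_sub] at this⟩

theorem s44d_exp_lt_one {n : ℕ} (hn : 1 ≤ n) : (exp (-(n : ℤ)) : ℤᵐ⁰) < 1 := by
  rw [← exp_zero, exp_lt_exp]; omega

/-- an integral element `≡ 1 mod Q^n` is a principal unit of level `n`. -/
theorem s44d_mk0_mem_U {v : HeightOneSpectrum S} {n : ℕ} (hn : 1 ≤ n) (s : S)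
    (hs : algebraMap S F s ≠ 0) (h : s - 1 ∈ v.asIdeal ^ n) :
    Units.mk0 _ hs ∈ s44d_U (v.valuation F) (exp (-(n : ℤ))) := by
  have h1 : v.valuation F ((Units.mk0 _ hs : Fˣ) - 1) ≤ exp (-(n : ℤ)) := by
    rw [Units.val_mk0, ← map_one (algebraMap S F), ← map_sub]
    have := (v.intValuation_le_pow_iff_mem _ n).2 h
    rwa [← HeightOneSpectrum.valuation_of_algebraMap (K := F)] at this
  exact ⟨h1, lt_of_le_of_lt h1 (s44d_exp_lt_one hn)⟩

theorem s44d_sub_one_mem_of_U {v : HeightOneSpectrum S} {n : ℕ} (s : S)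
    (h : v.valuation F (algebraMap S F s - 1) ≤ exp (-(n : ℤ))) : s - 1 ∈ v.asIdeal ^ n := by
  rw [← v.intValuation_le_pow_iff_mem, ← HeightOneSpectrum.valuation_of_algebraMap (K := F)]
  change v.valuation F (algebraMap S F (s - 1)) ≤ _
  rwa [map_sub, map_one]

/-- **(A_F).** `Λ(U_0^n) ⊆ U_i^n`. -/
theorem s44d_LamA (hmap : Ideal.span {algebraMap R S π} = v0.asIdeal * vi.asIdeal)
    (hne : v0 ≠ vi) (hall : ∀ v : HeightOneSpectrum S, v = v0 ∨ v = vi)
    (htr : ∀ s : S, algebraMap R S (Algebra.trace R S s) - s ∈ vi.asIdeal)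
    (N : F →* F') (hN : ∀ s : S, N (algebraMap S F s) = algebraMap R F' (Algebra.norm R s))
    (n : ℕ) (hn : 1 ≤ n) (b : Fˣ) (hb : b ∈ s44d_U (v0.valuation F) (exp (-(n : ℤ)))) :
    s44d_Lam N b ∈ s44d_U (vi.valuation F) (exp (-(n : ℤ))) := by
  have hcop := s44d_isCoprime hne
  have hsurj := s44d_hsurj_of_htr (R := R) htr
  obtain ⟨ϖ, hϖ0, hϖi⟩ := s44d_exists_unif hne n
  obtain ⟨θ, hθi, hθ0⟩ := s44d_exists_unif hne.symm 1
  have hϖ0' := s44d_intVal_eq_one_of_sub_mem hn hϖ0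
  have hθi' := s44d_intVal_eq_one_of_sub_mem le_rfl hθi
  obtain ⟨i, j, ε, hdec, hε0, hεi⟩ :=
    s44d_decomp (F := F) hall θ ϖ hθ0 hθi' hϖ0' hϖi (b : F) b.ne_zero
  have hθne : algebraMap S F θ ≠ 0 := by
    intro h
    have := HeightOneSpectrum.valuation_of_algebraMap (K := F) vi θ
    rw [hθi'] at this
    change vi.valuation F (algebraMap S F θ) = 1 at this
    rw [h, map_zero] at this; exact zero_ne_one this
  have hϖne : algebraMap S F ϖ ≠ 0 := by
    intro h
    have := HeightOneSpectrum.valuation_of_algebraMap (K := F) v0 ϖ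
    rw [hϖ0'] at this
    change v0.valuation F (algebraMap S F ϖ) = 1 at this
    rw [h, map_zero] at this; exact zero_ne_one this
  have hεne : algebraMap S F ε ≠ 0 := by
    intro h
    have := HeightOneSpectrum.valuation_of_algebraMap (K := F) v0 ε
    rw [hε0] at this
    change v0.valuation F (algebraMap S F ε) = 1 at this
    rw [h, map_zero] at this; exact zero_ne_one this
  -- i = 0
  have hb1 : v0.valuation F (b : F) = 1 := s44d_val_of_mem_U hb
  have hi0 : i = 0 := by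
    have h1 := HeightOneSpectrum.valuation_of_algebraMap (K := F) v0 θ
    have h2 := HeightOneSpectrum.valuation_of_algebraMap (K := F) v0 ϖ
    have h3 := HeightOneSpectrum.valuation_of_algebraMap (K := F) v0 ε
    change v0.valuation F (algebraMap S F θ) = _ at h1
    change v0.valuation F (algebraMap S F ϖ) = _ at h2
    change v0.valuation F (algebraMap S F ε) = _ at h3
    rw [hdec, map_mul, map_mul, map_zpow₀, map_zpow₀, h1, h2, h3, hθ0, hϖ0', hε0, one_zpow,
      mul_one, mul_one, ← exp_zsmul, ← exp_zero, exp_inj, smul_eq_mul] at hb1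
    omega
  rw [hi0, zpow_zero, one_mul] at hdec
  -- b = ϖ^j ε as units
  set uϖ : Fˣ := Units.mk0 _ hϖne with huϖ
  set uε : Fˣ := Units.mk0 _ hεne with huε
  have hbu : b = uϖ ^ j * uε := by
    ext
    rw [hdec]; simp [huϖ, huε]
  have hϖU : uϖ ∈ s44d_U (v0.valuation F) (exp (-(n : ℤ))) := s44d_mk0_mem_U hn ϖ hϖne hϖ0
  have hεU : uε ∈ s44d_U (v0.valuation F) (exp (-(n : ℤ))) := by
    have : uε = (uϖ ^ j)⁻¹ * b := by rw [hbu]; group
    rw [this]
    exact mul_mem (inv_mem (zpow_mem hϖU j)) hb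
  have hε1 : ε - 1 ∈ v0.asIdeal ^ n := s44d_sub_one_mem_of_U (F := F) ε (by
    have := hεU.1; rwa [huε, Units.val_mk0] at this)
  -- (N-A) for ε (k = 0) and ϖ (k = 1)
  have hAε := s44d_normA hmap hcop hsurj n 0 ε hε1 (by simp)
  have hAϖ := s44d_normA hmap hcop hsurj n 1 ϖ hϖ0 (by
    rw [pow_one, ← vi.intValuation_lt_one_iff_mem, hϖi, ← exp_zero, exp_lt_exp]; norm_num)
  have hΛε := s44d_Lam_mem_of N hN ε hεne 0 n hn (by rw [hεi]; simp) hAε
  have hΛϖ := s44d_Lam_mem_of N hN ϖ hϖne 1 n hn (by rw [hϖi]; simp) hAϖ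
  rw [hbu, map_mul, map_zpow]
  exact mul_mem (zpow_mem hΛϖ j) hΛε

end LamAC

end Fermat.Agent.S44
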