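import Mathlib
import Fermat.Agent.S44.Dich.LamA

set_option autoImplicit false
set_option linter.unusedSectionVars false

namespace Fermat.Agent.S44

open IsDedekindDomain WithZero

section LamC

variable {R S F' F : Type*} [CommRing R] [CommRing S] [IsDedekindDomain S] [Algebra R S]
  [Module.Free R S] [Module.Finite R S]
  [Field F'] [Field F] [Algebra R F'] [Algebra S F] [IsFractionRing S F] [Algebra F' F]
  [Algebra R F] [IsScalarTower R S F] [IsScalarTower R F' F]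
  {π : R} {v0 vi : HeightOneSpectrum S}

/-- **(C_F).** `Λ(U_0^d ∩ U_i^d) ⊆ U_i^(d+1)` for `d ≥ 1`. -/
theorem s44d_LamC (hmap : Ideal.span {algebraMap R S π} = v0.asIdeal * vi.asIdeal)
    (hne : v0 ≠ vi) (hall : ∀ v : HeightOneSpectrum S, v = v0 ∨ v = vi)
    (htr : ∀ s : S, algebraMap R S (Algebra.trace R S s) - s ∈ vi.asIdeal)
    (N : F →* F') (hN : ∀ s : S, N (algebraMap S F s) = algebraMap R F' (Algebra.norm R s))
    (d : ℕ) (hd : 1 ≤ d) (b : Fˣ) (hb0 : b ∈ s44d_U (v0.valuation F) (exp (-(d : ℤ))))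
    (hbi : b ∈ s44d_U (vi.valuation F) (exp (-(d : ℤ)))) :
    s44d_Lam N b ∈ s44d_U (vi.valuation F) (exp (-((d + 1 : ℕ) : ℤ))) := by
  have hcop := s44d_isCoprime hne
  obtain ⟨s, hs⟩ := s44d_mem_S hall (b : F) (s44d_val_of_mem_U hb0).le (s44d_val_of_mem_U hbi).le
  have hsne : algebraMap S F s ≠ 0 := hs ▸ b.ne_zero
  have hbs : b = Units.mk0 _ hsne := by ext; simp [hs]
  have h0 : s - 1 ∈ v0.asIdeal ^ d := s44d_sub_one_mem_of_U (F := F) s (by rw [hs]; exact hb0.1)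
  have hi : s - 1 ∈ vi.asIdeal ^ d := s44d_sub_one_mem_of_U (F := F) s (by rw [hs]; exact hbi.1)
  obtain ⟨u, hu⟩ := s44d_mem_span_of_mem hmap hcop d h0 hi
  have hC := s44d_normC hmap htr d hd s u (by linear_combination hu)
  have hval : vi.intValuation s = exp (-((0 : ℕ) : ℤ)) := by
    have := HeightOneSpectrum.valuation_of_algebraMap (K := F) vi s
    change vi.valuation F (algebraMap S F s) = _ at this
    rw [← this, hs, s44d_val_of_mem_U hbi]; simp
  rw [hbs]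
  exact s44d_Lam_mem_of N hN s hsne 0 (d + 1) (by omega) hval hC

/-- **Weak approximation**: `t ≈ 1` at `vi`, `t ≈ ρ` at `v0`. -/
theorem s44d_weak_approx (hne : v0 ≠ vi) (hall : ∀ v : HeightOneSpectrum S, v = v0 ∨ v = vi)
    (m : ℕ) (hm : 1 ≤ m) (ρ : Fˣ) :
    ∃ t : Fˣ, t ∈ s44d_U (vi.valuation F) (exp (-(m : ℤ))) ∧
      t / ρ ∈ s44d_U (v0.valuation F) (exp (-(m : ℤ))) := by
  have hcop := s44d_isCoprime hne
  obtain ⟨ϖ, hϖ0, hϖi⟩ := s44d_exists_unif hne m
  obtain ⟨θ, hθi, hθ0⟩ := s44d_exists_unif hne.symm m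
  have hϖ0' := s44d_intVal_eq_one_of_sub_mem hm hϖ0
  have hθi' := s44d_intVal_eq_one_of_sub_mem hm hθi
  obtain ⟨i, j, ε, hdec, hε0, hεi⟩ :=
    s44d_decomp (F := F) hall θ ϖ hθ0 hθi' hϖ0' hϖi (ρ : F) ρ.ne_zero
  have ne_of_val : ∀ (v : HeightOneSpectrum S) (x : S), v.intValuation x = 1 →
      algebraMap S F x ≠ 0 := by
    intro v x hx h
    have := HeightOneSpectrum.valuation_of_algebraMap (K := F) v x
    rw [hx] at this
    change v.valuation F (algebraMap S F x) = 1 at this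
    rw [h, map_zero] at this; exact zero_ne_one this
  have hθne := ne_of_val vi θ hθi'
  have hϖne := ne_of_val v0 ϖ hϖ0'
  have hεne := ne_of_val v0 ε hε0
  -- ε' ≡ ε mod Q0^m, ≡ 1 mod Qi^m
  obtain ⟨ε', hε'0, hε'i⟩ := s44d_crt hcop m m ε 1
  have hε'v0 : v0.intValuation ε' = 1 := by
    have h1 : v0.intValuation (ε' - ε) < v0.intValuation ε := by
      rw [hε0, v0.intValuation_lt_one_iff_mem]
      exact Ideal.pow_le_self (by omega) hε'0
    have : ε' = ε + (ε' - ε) := by ring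
    rw [this, Valuation.map_add_eq_of_lt_left _ h1, hε0]
  have hε'ne := ne_of_val v0 ε' hε'v0
  set uθ : Fˣ := Units.mk0 _ hθne with huθ
  set uϖ : Fˣ := Units.mk0 _ hϖne with huϖ
  set uε : Fˣ := Units.mk0 _ hεne with huε
  set uε' : Fˣ := Units.mk0 _ hε'ne with huε'
  have hρu : ρ = uθ ^ i * uϖ ^ j * uε := by
    ext; rw [hdec]; simp [huθ, huϖ, huε]
  refine ⟨uθ ^ i * uε', ?_, ?_⟩
  · exact mul_mem (zpow_mem (s44d_mk0_mem_U hm θ hθne hθi) i) (s44d_mk0_mem_U hm ε' hε'ne hε'i)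
  · have h1 : uθ ^ i * uε' / ρ = (uε' / uε) * (uϖ ^ j)⁻¹ := by
      rw [hρu, div_eq_mul_inv, div_eq_mul_inv, mul_inv, mul_inv]
      have hc : ∀ a b c d : Fˣ, a * b * (a⁻¹ * c⁻¹ * d⁻¹) = b * d⁻¹ * c⁻¹ := by
        intro a b c d
        rw [mul_comm a b, mul_assoc b a, mul_assoc a⁻¹, ← mul_assoc a a⁻¹, mul_inv_cancel, one_mul,
          mul_comm c⁻¹ d⁻¹, mul_assoc]
      exact hc _ _ _ _
    rw [h1]
    refine mul_mem ?_ (inv_mem (zpow_mem (s44d_mk0_mem_U hm ϖ hϖne hϖ0) j))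
    -- uε'/uε ∈ U_0^m
    have h2 : v0.valuation F (((uε' / uε : Fˣ) : F) - 1) ≤ exp (-(m : ℤ)) := by
      have h3 : ((uε' / uε : Fˣ) : F) - 1 = algebraMap S F (ε' - ε) / algebraMap S F ε := by
        rw [Units.val_div_eq_div_val, huε', huε, Units.val_mk0, Units.val_mk0, map_sub]
        field_simp
      have h4 : v0.valuation F (algebraMap S F ε) = 1 := by
        rw [← hε0]; exact HeightOneSpectrum.valuation_of_algebraMap v0 ε
      have h5 : v0.valuation F (algebraMap S F (ε' - ε)) ≤ exp (-(m : ℤ)) := by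
        have := (v0.intValuation_le_pow_iff_mem _ m).2 hε'0
        rwa [← HeightOneSpectrum.valuation_of_algebraMap (K := F)] at this
      rw [h3, map_div₀, h4, div_one]
      exact h5
    exact ⟨h2, lt_of_le_of_lt h2 (s44d_exp_lt_one hm)⟩

end LamC

end Fermat.Agent.S44
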