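import Mathlib
import Fermat.Agent.S44.Dich.LamC

set_option autoImplicit false
set_option linter.unusedSectionVars false

namespace Fermat.Agent.S44

open IsDedekindDomain WithZero

section Step

variable {R S F' F : Type*} [CommRing R] [CommRing S] [IsDedekindDomain S] [Algebra R S]
  [Module.Free R S] [Module.Finite R S]
  [Field F'] [Field F] [Algebra R F'] [Algebra S F] [IsFractionRing S F] [Algebra F' F]
  [Algebra R F] [IsScalarTower R S F] [IsScalarTower R F' F]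
  {π : R} {v0 vi : HeightOneSpectrum S}

theorem s44d_comm_identity {G : Type*} [CommGroup G] (a b c e r : G) :
    r * (a * (c / e)) * (a / e / (b / c))⁻¹ = r * b := by
  apply Additive.ofMul.injective
  simp only [ofMul_mul, ofMul_div, ofMul_inv]
  abel

theorem s44d_Lam_apply (N : F →* F') (b : Fˣ) :
    s44d_Lam N b = Units.map ((algebraMap F' F : F' →* F).comp N) b / b := rfl

/-- **[DICH], one step in one direction.**  `R ⊆ S` as in `ssm_tv_main` (`S` with exactly two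
primes `v0` (inseparable residue extension) and `vi` (`e = f = 1`), `π S = v0 vi`,
`Tr(s) ≡ s mod vi`), `N` the norm `F = Frac S → F'`, `P ≤ Fˣ`, `P' ≤ F'ˣ` with `α(P') ≤ P`,
`N(P) ≤ P'`.  If `N f ∈ P'` and `f` has depth `≥ d ≥ 1` at BOTH primes (`f ∈ P · U_v^d`), then `f`
has depth `≥ d + 1` at `vi`. -/
theorem s44d_step (hmap : Ideal.span {algebraMap R S π} = v0.asIdeal * vi.asIdeal)
    (hne : v0 ≠ vi) (hall : ∀ v : HeightOneSpectrum S, v = v0 ∨ v = vi)
    (htr : ∀ s : S, algebraMap R S (Algebra.trace R S s) - s ∈ vi.asIdeal)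
    (N : F →* F') (hN : ∀ s : S, N (algebraMap S F s) = algebraMap R F' (Algebra.norm R s))
    (P : Subgroup Fˣ) (P' : Subgroup F'ˣ)
    (hPP' : ∀ x ∈ P', Units.map (algebraMap F' F : F' →* F) x ∈ P)
    (hNP : ∀ x ∈ P, Units.map N x ∈ P')
    (f : Fˣ) (hNf : Units.map N f ∈ P') (d : ℕ) (hd : 1 ≤ d)
    (h0 : f ∈ P ⊔ s44d_U (v0.valuation F) (exp (-(d : ℤ))))
    (hi : f ∈ P ⊔ s44d_U (vi.valuation F) (exp (-(d : ℤ)))) :
    f ∈ P ⊔ s44d_U (vi.valuation F) (exp (-((d + 1 : ℕ) : ℤ))) := by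
  obtain ⟨ρi, hρi, ui, hui, efi⟩ := Subgroup.mem_sup.1 hi
  obtain ⟨ρ0, hρ0, u0, hu0, ef0⟩ := Subgroup.mem_sup.1 h0
  set αN : Fˣ →* Fˣ := Units.map ((algebraMap F' F : F' →* F).comp N) with hαN
  have hαNP : ∀ x : Fˣ, Units.map N x ∈ P' → αN x ∈ P := by
    intro x hx
    have := hPP' _ hx
    rwa [← MonoidHom.comp_apply, ← Units.map_comp] at this
  -- ρ := ρ0 / ρi, ui = ρ * u0
  set ρ : Fˣ := ρ0 / ρi with hρ
  have hρP : ρ ∈ P := div_mem hρ0 hρi
  have hui' : ui = ρ * u0 := by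
    rw [hρ, div_mul_eq_mul_div, ef0, ← efi, mul_div_cancel_left]
  obtain ⟨t, hti, ht0⟩ := s44d_weak_approx (F := F) hne hall (d + 1) (by omega) ρ
  have hmono0 : s44d_U (v0.valuation F) (exp (-((d + 1 : ℕ) : ℤ))) ≤
      s44d_U (v0.valuation F) (exp (-(d : ℤ))) := s44d_U_mono (by rw [exp_le_exp]; push_cast; omega)
  have hmonoi : s44d_U (vi.valuation F) (exp (-((d + 1 : ℕ) : ℤ))) ≤
      s44d_U (vi.valuation F) (exp (-(d : ℤ))) := s44d_U_mono (by rw [exp_le_exp]; push_cast; omega)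
  -- a₂ := ui / t
  have ha2i : ui / t ∈ s44d_U (vi.valuation F) (exp (-(d : ℤ))) := div_mem hui (hmonoi hti)
  have ha20 : ui / t ∈ s44d_U (v0.valuation F) (exp (-(d : ℤ))) := by
    have : ui / t = u0 / (t / ρ) := by
      rw [hui', div_div_eq_mul_div, mul_comm ρ u0]
    rw [this]
    exact div_mem hu0 (hmono0 ht0)
  have hC := s44d_LamC hmap hne hall htr N hN d hd (ui / t) ha20 ha2i
  have hA := s44d_LamA hmap hne hall htr N hN (d + 1) (by omega) (t / ρ) ht0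
  -- x := (ui / t) * (t / ρ) = ui / ρ, Λ x ∈ U_i^(d+1)
  have hx : s44d_Lam N (ui / ρ) ∈ s44d_U (vi.valuation F) (exp (-((d + 1 : ℕ) : ℤ))) := by
    have : ui / ρ = (ui / t) * (t / ρ) := by rw [div_mul_div_cancel]
    rw [this, map_mul]
    exact mul_mem hC hA
  -- N ui ∈ P'
  have hNui : Units.map N ui ∈ P' := by
    have : ui = f / ρi := by rw [← efi, mul_div_cancel_left]
    rw [this, map_div]
    exact div_mem hNf (hNP _ hρi)
  -- f = [ρi * αN(ui) * ρ / αN(ρ)] * (Λ(ui/ρ))⁻¹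
  refine Subgroup.mem_sup.2 ⟨ρi * (αN ui * (ρ / αN ρ)), ?_, (s44d_Lam N (ui / ρ))⁻¹, inv_mem hx, ?_⟩
  · exact mul_mem hρi (mul_mem (hαNP _ hNui) (div_mem hρP (hαNP _ (hNP _ hρP))))
  · rw [← efi, s44d_Lam_apply, ← hαN, map_div αN ui ρ]
    exact s44d_comm_identity _ _ _ _ _

end Step

end Fermat.Agent.S44
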