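import Mathlib
import Fermat.Agent.S44.Dich.Step

set_option autoImplicit false
set_option linter.unusedSectionVars false

/-!
# S44 cell [F] DICH: the dichotomy `split / not split` on `ker (α_*, β_*)`

`s44d_dich_abs` : the abstract induction;
`s44d_dich`     : the two-sided statement for a Dedekind domain `S` with exactly two primes `v0, vi`
and TWO structures `R₁ → S` (for which `v0` is the inseparable prime and `vi` the `(1,1)` prime)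
and `R₂ → S` (roles swapped), as produced by `ssm_tv_main` for the two degeneracy maps
`α, β : X₀(pM') → X₀(M')`.  If `N₁ f ∈ P'₁`, `N₂ f ∈ P'₂` and `f` has depth `≥ 1` at both primes, then
`f` has depth `≥ n` at both primes for every `n`.
-/

namespace Fermat.Agent.S44

open IsDedekindDomain WithZero

theorem s44d_dich_abs {G : Type*} [CommGroup G] (P : Subgroup G) (U0 Ui : ℕ → Subgroup G) (f : G)
    (hα : ∀ d, 1 ≤ d → f ∈ P ⊔ U0 d → f ∈ P ⊔ Ui d → f ∈ P ⊔ Ui (d + 1))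
    (hβ : ∀ d, 1 ≤ d → f ∈ P ⊔ U0 d → f ∈ P ⊔ Ui d → f ∈ P ⊔ U0 (d + 1))
    (h0 : f ∈ P ⊔ U0 1) (hi : f ∈ P ⊔ Ui 1) :
    ∀ n, 1 ≤ n → f ∈ P ⊔ U0 n ∧ f ∈ P ⊔ Ui n := by
  intro n hn
  induction n, hn using Nat.le_induction with
  | base => exact ⟨h0, hi⟩
  | succ d hd ih => exact ⟨hβ d hd ih.1 ih.2, hα d hd ih.1 ih.2⟩

section Two

variable {R₁ R₂ S F'₁ F'₂ F : Type*} [CommRing R₁] [CommRing R₂] [CommRing S] [IsDedekindDomain S]
  [Algebra R₁ S] [Module.Free R₁ S] [Module.Finite R₁ S]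
  [Algebra R₂ S] [Module.Free R₂ S] [Module.Finite R₂ S]
  [Field F'₁] [Field F'₂] [Field F] [Algebra S F] [IsFractionRing S F]
  [Algebra R₁ F'₁] [Algebra F'₁ F] [Algebra R₁ F] [IsScalarTower R₁ S F] [IsScalarTower R₁ F'₁ F]
  [Algebra R₂ F'₂] [Algebra F'₂ F] [Algebra R₂ F] [IsScalarTower R₂ S F] [IsScalarTower R₂ F'₂ F]
  {π₁ : R₁} {π₂ : R₂} {v0 vi : HeightOneSpectrum S}

/-- **[DICH]**: depth `≥ 1` at both components and both norms trivial `⟹` split at both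
components (depth `≥ n` for every `n`). -/
theorem s44d_dich (hne : v0 ≠ vi) (hall : ∀ v : HeightOneSpectrum S, v = v0 ∨ v = vi)
    (hmap₁ : Ideal.span {algebraMap R₁ S π₁} = v0.asIdeal * vi.asIdeal)
    (htr₁ : ∀ s : S, algebraMap R₁ S (Algebra.trace R₁ S s) - s ∈ vi.asIdeal)
    (N₁ : F →* F'₁)
    (hN₁ : ∀ s : S, N₁ (algebraMap S F s) = algebraMap R₁ F'₁ (Algebra.norm R₁ s))
    (hmap₂ : Ideal.span {algebraMap R₂ S π₂} = vi.asIdeal * v0.asIdeal)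
    (htr₂ : ∀ s : S, algebraMap R₂ S (Algebra.trace R₂ S s) - s ∈ v0.asIdeal)
    (N₂ : F →* F'₂)
    (hN₂ : ∀ s : S, N₂ (algebraMap S F s) = algebraMap R₂ F'₂ (Algebra.norm R₂ s))
    (P : Subgroup Fˣ) (P'₁ : Subgroup F'₁ˣ) (P'₂ : Subgroup F'₂ˣ)
    (hPP'₁ : ∀ x ∈ P'₁, Units.map (algebraMap F'₁ F : F'₁ →* F) x ∈ P)
    (hNP₁ : ∀ x ∈ P, Units.map N₁ x ∈ P'₁)
    (hPP'₂ : ∀ x ∈ P'₂, Units.map (algebraMap F'₂ F : F'₂ →* F) x ∈ P)
    (hNP₂ : ∀ x ∈ P, Units.map N₂ x ∈ P'₂)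
    (f : Fˣ) (hNf₁ : Units.map N₁ f ∈ P'₁) (hNf₂ : Units.map N₂ f ∈ P'₂)
    (h0 : f ∈ P ⊔ s44d_U (v0.valuation F) (exp (-((1 : ℕ) : ℤ))))
    (hi : f ∈ P ⊔ s44d_U (vi.valuation F) (exp (-((1 : ℕ) : ℤ)))) :
    ∀ n : ℕ, 1 ≤ n → f ∈ P ⊔ s44d_U (v0.valuation F) (exp (-(n : ℤ))) ∧
      f ∈ P ⊔ s44d_U (vi.valuation F) (exp (-(n : ℤ))) := by
  have hall' : ∀ v : HeightOneSpectrum S, v = vi ∨ v = v0 := fun v => (hall v).symm
  exact s44d_dich_abs P (fun n => s44d_U (v0.valuation F) (exp (-(n : ℤ))))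
    (fun n => s44d_U (vi.valuation F) (exp (-(n : ℤ)))) f
    (fun d hd a b => s44d_step hmap₁ hne hall htr₁ N₁ hN₁ P P'₁ hPP'₁ hNP₁ f hNf₁ d hd a b)
    (fun d hd a b => s44d_step hmap₂ hne.symm hall' htr₂ N₂ hN₂ P P'₂ hPP'₂ hNP₂ f hNf₂ d hd b a)
    h0 hi

end Two

end Fermat.Agent.S44
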